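import Mathlib.NumberTheory.ModularForms.CuspFormSubmodule
import Fermat.Prelude.Thm_ModularForm_sturm_bound_Gamma0
import Fermat.Prelude.Thm_CongruenceSubgroup_one_mem_strictPeriods_Gamma0

/-!
# No weight two cusp forms on `Γ₀(1)` and `Γ₀(2)`
-/

open UpperHalfPlane CongruenceSubgroup
open scoped MatrixGroups

namespace Fermat.Agent.Modular

/-- The index of `Γ₀(N)` is at most `N ^ 2`: a coset is determined by its first column mod `N`. -/
lemma index_Gamma0_le_sq (N : ℕ) [NeZero N] : (Gamma0 N).index ≤ N ^ 2 := by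
  let col : SL(2, ℤ) ⧸ Gamma0 N → ZMod N × ZMod N := fun q =>
    ((q.out 0 0 : ℤ), (q.out 1 0 : ℤ))
  have hinj : Function.Injective col := by
    intro x y hxy
    simp only [col, Prod.mk.injEq] at hxy
    rw [← QuotientGroup.out_eq' x, ← QuotientGroup.out_eq' y, QuotientGroup.eq, Gamma0_mem]
    simp only [Matrix.SpecialLinearGroup.coe_mul, Matrix.SpecialLinearGroup.coe_inv,
      Matrix.adjugate_fin_two, Matrix.mul_apply, Fin.sum_univ_two]
    simp [hxy.1, hxy.2]
    ring
  have := Nat.card_le_card_of_injective col hinj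
  simpa [Subgroup.index, sq] using this

/-- A weight two cusp form on `Γ₀(N)` vanishes as soon as the Sturm bound is zero. -/
lemma cuspForm_two_eq_zero_of_index_lt {N : ℕ} [NeZero N]
    (hN : (Gamma0 N).index < 6) (f : CuspForm (Gamma0 N) 2) : f = 0 := by
  have hcoe : (f : ModularForm (Gamma0 N) 2) = 0 := by
    apply ModularForm.sturm_bound_Gamma0 N
    intro n hn
    have h0 : n = 0 := by
      have : ((2 : ℤ) * ((Gamma0 N).index : ℤ)).toNat < 12 := by omega
      omega
    subst h0
    exact CuspFormClass.qExpansion_coeff_zero f one_pos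
      (CongruenceSubgroup.one_mem_strictPeriods_Gamma0 N)
  ext z
  exact DFunLike.congr_fun hcoe z

end Fermat.Agent.Modular
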